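import Fermat.Agent.S32.Spec
import Fermat.Agent.S31.H862.Reduced
import Fermat.Agent.S31.H262.Reduced
import Fermat.Agent.S22

/-!
# Row S32, piece RED (helper185): the coefficient ring of a Hecke–Galois datum is reduced

`red : Fermat.Agent.S32.RedStatement` (exact `Prop` of `S32/Spec.lean`).

Route.  Let `𝕋 = heckeAlgebra N 2 S`, `K = Frac 𝒪`.  The ring `K ⊗[ℤ] 𝕋` is reduced
(`S31.H862.heckeAlgebra_isReduced` = Petersson, `S31.H262.isReduced_field_tensor`) and artinian
(`𝕋` is finite over `ℤ`: landed S22), hence semisimple, so every quotient of it is reduced.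
`K ⊗[𝒪] T` is such a quotient because `T` is generated over `𝒪` by the image of `π`
(`adjoin_range_π`), and `T ↪ K ⊗[𝒪] T` because `T` is `𝒪`-free.

Abstract, reusable (no modular forms): `isReduced_of_surjective_of_isArtinianRing`,
`compMap`, `compMap_surjective`, `isReduced_of_adjoin_range`.
-/

set_option autoImplicit false
set_option linter.style.haveILetI false
set_option linter.unusedSectionVars false

open scoped TensorProduct

namespace Fermat.Agent.S32.H185

/-- A quotient of a reduced artinian commutative ring is reduced. -/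
theorem isReduced_of_surjective_of_isArtinianRing {R R' : Type*} [CommRing R] [CommRing R']
    [IsArtinianRing R] [IsReduced R] (f : R →+* R') (hf : Function.Surjective f) :
    IsReduced R' := by
  haveI : IsSemisimpleRing R := IsArtinianRing.isSemisimpleRing_of_isReduced R
  haveI : IsSemisimpleRing R' := f.isSemisimpleRing_of_surjective hf
  infer_instance

section

variable {𝒪 : Type} [CommRing 𝒪] (K : Type) [Field K] [Algebra 𝒪 K]
  {B : Type} [CommRing B] {T : Type} [CommRing T] [Algebra 𝒪 T]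

/-- `B → K ⊗[𝒪] T`, as a `ℤ`-algebra homomorphism. -/
noncomputable def rightHom (π : B →+* T) : B →ₐ[ℤ] K ⊗[𝒪] T where
  toRingHom := (Algebra.TensorProduct.includeRight : T →ₐ[𝒪] K ⊗[𝒪] T).toRingHom.comp π
  commutes' n := by
    rw [eq_intCast (algebraMap ℤ B) n, eq_intCast (algebraMap ℤ (K ⊗[𝒪] T)) n]
    simp

/-- `K → K ⊗[𝒪] T`, as a `ℤ`-algebra homomorphism. -/
noncomputable def leftHom : K →ₐ[ℤ] K ⊗[𝒪] T where
  toRingHom := (Algebra.TensorProduct.includeLeft : K →ₐ[𝒪] K ⊗[𝒪] T).toRingHom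
  commutes' n := by
    rw [eq_intCast (algebraMap ℤ K) n, eq_intCast (algebraMap ℤ (K ⊗[𝒪] T)) n]
    simp

/-- The comparison map `K ⊗[ℤ] B → K ⊗[𝒪] T`, `k ⊗ b ↦ k ⊗ π b`. -/
noncomputable def compMap (π : B →+* T) : K ⊗[ℤ] B →ₐ[ℤ] K ⊗[𝒪] T :=
  Algebra.TensorProduct.lift (leftHom (𝒪 := 𝒪) (T := T) K) (rightHom K π)
    (fun _ _ => Commute.all _ _)

theorem compMap_tmul (π : B →+* T) (k : K) (b : B) :
    compMap K π (k ⊗ₜ b) = k ⊗ₜ[𝒪] π b := by
  unfold compMap
  rw [Algebra.TensorProduct.lift_tmul]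
  show (k ⊗ₜ[𝒪] (1 : T)) * ((1 : K) ⊗ₜ[𝒪] π b) = _
  rw [Algebra.TensorProduct.tmul_mul_tmul, one_mul, mul_one]

/-- If `T` is generated over `𝒪` by the image of `π`, the comparison map is surjective. -/
theorem compMap_surjective (π : B →+* T) (hπ : Algebra.adjoin 𝒪 (Set.range π) = ⊤) :
    Function.Surjective (compMap (𝒪 := 𝒪) K π) := by
  have hright : ∀ t : T, (1 : K) ⊗ₜ[𝒪] t ∈ (compMap (𝒪 := 𝒪) K π).range := by
    intro t
    have ht : t ∈ Algebra.adjoin 𝒪 (Set.range π) := by rw [hπ]; trivial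
    induction ht using Algebra.adjoin_induction with
    | mem x hx =>
      obtain ⟨b, rfl⟩ := hx
      exact ⟨1 ⊗ₜ b, compMap_tmul K π 1 b⟩
    | algebraMap r =>
      refine ⟨algebraMap 𝒪 K r ⊗ₜ 1, (compMap_tmul K π _ _).trans ?_⟩
      rw [map_one, Algebra.algebraMap_eq_smul_one, Algebra.algebraMap_eq_smul_one,
        TensorProduct.smul_tmul]
    | add x y _ _ hx hy =>
      rw [TensorProduct.tmul_add]
      exact (compMap (𝒪 := 𝒪) K π).range.add_mem hx hy
    | mul x y _ _ hx hy =>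
      have : (1 : K) ⊗ₜ[𝒪] (x * y) = ((1 : K) ⊗ₜ[𝒪] x) * ((1 : K) ⊗ₜ[𝒪] y) := by
        rw [Algebra.TensorProduct.tmul_mul_tmul, one_mul]
      rw [this]
      exact (compMap (𝒪 := 𝒪) K π).range.mul_mem hx hy
  intro z
  have : z ∈ (compMap (𝒪 := 𝒪) K π).range := by
    induction z using TensorProduct.induction_on with
    | zero => exact (compMap (𝒪 := 𝒪) K π).range.zero_mem
    | tmul k t =>
      have : k ⊗ₜ[𝒪] t = (k ⊗ₜ[𝒪] (1 : T)) * ((1 : K) ⊗ₜ[𝒪] t) := by
        rw [Algebra.TensorProduct.tmul_mul_tmul, one_mul, mul_one]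
      rw [this]
      refine (compMap (𝒪 := 𝒪) K π).range.mul_mem
        ⟨k ⊗ₜ 1, (compMap_tmul K π _ _).trans ?_⟩ (hright t)
      rw [map_one]
    | add x y hx hy => exact (compMap (𝒪 := 𝒪) K π).range.add_mem hx hy
  exact this

/-- **Abstract form of RED.**  `T` a flat `𝒪`-algebra, `𝒪 ⊆ K` a field, `T` generated over `𝒪`
by the image of a ring homomorphism from a ring `B`, finite over `ℤ`, with `K ⊗[ℤ] B` reduced.
Then `T` is reduced. -/
theorem isReduced_of_adjoin_range [Module.Flat 𝒪 T] [Module.Finite ℤ B]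
    (hK : Function.Injective (algebraMap 𝒪 K)) (hB : IsReduced (K ⊗[ℤ] B))
    (π : B →+* T) (hπ : Algebra.adjoin 𝒪 (Set.range π) = ⊤) : IsReduced T := by
  haveI : Module.Finite K (K ⊗[ℤ] B) := inferInstance
  haveI : IsArtinianRing (K ⊗[ℤ] B) := isArtinian_of_tower K inferInstance
  haveI : IsReduced (K ⊗[𝒪] T) :=
    isReduced_of_surjective_of_isArtinianRing (compMap (𝒪 := 𝒪) K π).toRingHom
      (compMap_surjective K π hπ)
  exact isReduced_of_injective (Algebra.TensorProduct.includeRight : T →ₐ[𝒪] K ⊗[𝒪] T)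
    (Algebra.TensorProduct.includeRight_injective hK)

end

/-- **RED** (exact `Prop` of `S32/Spec.lean`): the coefficient ring `T` of a Hecke–Galois datum
is reduced. -/
theorem red : Fermat.Agent.S32.RedStatement := by
  intro N _ S hNS 𝒪 _ _ _ _ _ θ T _ _ _ _ _ _ _ _ H
  haveI : Module.Finite ℤ (CuspForm.heckeAlgebra N 2 (↑S : Set ℕ)) :=
    Fermat.Agent.S22.result N 2 (↑S : Set ℕ)
  haveI : IsReduced (CuspForm.heckeAlgebra N 2 (↑S : Set ℕ)) :=
    Fermat.Agent.S31.H862.heckeAlgebra_isReduced N (↑S : Set ℕ) hNS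
  haveI : CharZero (FractionRing 𝒪) :=
    charZero_of_injective_algebraMap (IsFractionRing.injective 𝒪 (FractionRing 𝒪))
  exact isReduced_of_adjoin_range (FractionRing 𝒪)
    (IsFractionRing.injective 𝒪 (FractionRing 𝒪))
    (Fermat.Agent.S31.H262.isReduced_field_tensor _ (FractionRing 𝒪)) H.π H.adjoin_range_π

end Fermat.Agent.S32.H185
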